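/-
S16, UPPER block, package U4-NS (backup copy by helper88): the norm–Sturm engine.

If every coset translate of a form `Ψ` of weight `w < 12` on `Γ₀(p)` has a period-`p` expansion
with coefficients in a subring `A ⊆ ℂ`, lying in a prime ideal `P` of `A` below `t ^ p` and not in
`P` at `t ^ p`, we get a contradiction: the norm `∏_c Ψ_c` is a level-one form of weight
`w * n` (`n` the number of cosets), whose `q`-expansion has its coefficients in `P` below `q ^ n`
and not in `P` at `q ^ n`, contradicting the Sturm bound `⌊w n / 12⌋ < n` over the additive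
subgroup `P`.
-/
import Fermat.Agent.S20.Basic
import Fermat.Agent.S20.LevelOne
import Fermat.Agent.S22.QAlg
import Fermat.Agent.S28.H22.SlashQExp
import Fermat.Agent.S16.H78.LevelOneZ

set_option autoImplicit false

open UpperHalfPlane ModularForm CongruenceSubgroup Matrix.SpecialLinearGroup Function
open scoped MatrixGroups ModularForm Manifold Topology
open Fermat.Agent.S20

noncomputable section

namespace Fermat.Agent.S16.H88

/-! ### A formal lemma: orders modulo a prime ideal are additive -/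

/-- Two-factor version. -/
theorem coeff_mul_mem {A : Type*} [CommRing A] (P : Ideal A) (hP : P.IsPrime)
    (F G : PowerSeries A) (a b : ℕ)
    (hF : ∀ n < a, PowerSeries.coeff n F ∈ P) (hF' : PowerSeries.coeff a F ∉ P)
    (hG : ∀ n < b, PowerSeries.coeff n G ∈ P) (hG' : PowerSeries.coeff b G ∉ P) :
    (∀ n < a + b, PowerSeries.coeff n (F * G) ∈ P) ∧ PowerSeries.coeff (a + b) (F * G) ∉ P := by
  constructor
  · intro n hn
    rw [PowerSeries.coeff_mul]
    refine P.sum_mem fun x hx => ?_
    rw [Finset.HasAntidiagonal.mem_antidiagonal] at hx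
    by_cases h1 : x.1 < a
    · exact P.mul_mem_right _ (hF _ h1)
    · have h2 : x.2 < b := by omega
      exact P.mul_mem_left _ (hG _ h2)
  · intro hmem
    rw [PowerSeries.coeff_mul] at hmem
    have hab : (a, b) ∈ Finset.HasAntidiagonal.antidiagonal (a + b) := by
      rw [Finset.HasAntidiagonal.mem_antidiagonal]
    rw [← Finset.add_sum_erase _ _ hab] at hmem
    have hrest : ∑ x ∈ (Finset.HasAntidiagonal.antidiagonal (a + b)).erase (a, b),
        PowerSeries.coeff x.1 F * PowerSeries.coeff x.2 G ∈ P := by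
      refine P.sum_mem fun x hx => ?_
      rw [Finset.mem_erase, Finset.HasAntidiagonal.mem_antidiagonal] at hx
      obtain ⟨hne, hsum⟩ := hx
      by_cases h1 : x.1 < a
      · exact P.mul_mem_right _ (hF _ h1)
      · have h2 : x.2 < b := by
          by_contra h2
          apply hne
          have h3 : x.1 = a := by omega
          have h4 : x.2 = b := by omega
          exact Prod.ext h3 h4
        exact P.mul_mem_left _ (hG _ h2)
    have hmain : PowerSeries.coeff a F * PowerSeries.coeff b G ∈ P := by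
      have := P.sub_mem hmem hrest
      simpa using this
    rcases hP.mem_or_mem hmain with h | h
    · exact hF' h
    · exact hG' h

/-- Finite products. -/
theorem coeff_prod_mem {A : Type*} [CommRing A] (P : Ideal A) (hP : P.IsPrime) {ι : Type*}
    (s : Finset ι) (p : ℕ) (Q : ι → PowerSeries A)
    (h1 : ∀ i ∈ s, ∀ n < p, PowerSeries.coeff n (Q i) ∈ P)
    (h2 : ∀ i ∈ s, PowerSeries.coeff p (Q i) ∉ P) :
    (∀ n < p * s.card, PowerSeries.coeff n (∏ i ∈ s, Q i) ∈ P) ∧
      PowerSeries.coeff (p * s.card) (∏ i ∈ s, Q i) ∉ P := by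
  classical
  induction s using Finset.induction_on with
  | empty =>
    refine ⟨fun n hn => by simp at hn, ?_⟩
    simp only [Finset.prod_empty, Finset.card_empty, mul_zero, PowerSeries.coeff_zero_eq_constantCoeff,
      map_one]
    exact fun h => hP.ne_top (P.eq_top_of_isUnit_mem h isUnit_one)
  | insert a s ha ih =>
    rw [Finset.prod_insert ha, Finset.card_insert_of_notMem ha, mul_add, mul_one, add_comm]
    obtain ⟨ih1, ih2⟩ := ih (fun i hi => h1 i (Finset.mem_insert_of_mem hi))
      (fun i hi => h2 i (Finset.mem_insert_of_mem hi))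
    exact coeff_mul_mem P hP (Q a) (∏ i ∈ s, Q i) p (p * s.card)
      (h1 a (Finset.mem_insert_self a s)) (h2 a (Finset.mem_insert_self a s)) ih1 ih2

/-! ### Change of period -/

local notation "𝕢" => Periodic.qParam

theorem qParam_one_eq_pow (p : ℕ) (hp : p ≠ 0) (z : ℂ) : 𝕢 (1 : ℝ) z = 𝕢 (p : ℝ) z ^ p := by
  unfold Periodic.qParam
  rw [← Complex.exp_nat_mul]
  congr 1
  have hp' : (p : ℂ) ≠ 0 := by exact_mod_cast hp
  push_cast
  field_simp

/-- The period-`p` expansion of a `1`-periodic function is its `q`-expansion in `q = t ^ p`. -/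
theorem qExpansion_coeff_mul {F : ℍ → ℂ} (hF : Fermat.Agent.S22.IsNice 1 F) (p : ℕ) (hp : p ≠ 0)
    (k : ℕ) : (qExpansion (p : ℝ) F).coeff (p * k) = (qExpansion (1 : ℝ) F).coeff k := by
  have hppos : (0 : ℝ) < (p : ℝ) := by exact_mod_cast Nat.pos_of_ne_zero hp
  have : NeZero p := ⟨hp⟩
  have hper1 : Periodic (F ∘ ofComplex) ((1 : ℝ) : ℂ) := by simpa using hF.per
  have hFp : Fermat.Agent.S22.IsNice p F :=
    Fermat.Agent.S22.IsNice.of_one p hper1 hF.holo hF.bdd
  set c : ℕ → ℂ := fun m => if p ∣ m then (qExpansion (1 : ℝ) F).coeff (m / p) else 0 with hc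
  have hsum : ∀ τ : ℍ, HasSum (fun m : ℕ => c m • 𝕢 (p : ℝ) τ ^ m) (F τ) := by
    intro τ
    have h1 := hasSum_qExpansion one_pos hper1 hF.holo hF.bdd τ
    have hinj : Function.Injective (fun m : ℕ => p * m) := fun m n hmn =>
      Nat.eq_of_mul_eq_mul_left (Nat.pos_of_ne_zero hp) hmn
    rw [← hinj.hasSum_iff]
    · have h3 : ((fun m : ℕ => c m • 𝕢 (p : ℝ) τ ^ m) ∘ fun m : ℕ => p * m)
          = fun m : ℕ => (qExpansion (1 : ℝ) F).coeff m • 𝕢 (1 : ℝ) τ ^ m := by
        funext m
        simp only [Function.comp_apply, hc, if_pos (dvd_mul_right p m),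
          Nat.mul_div_cancel_left m (Nat.pos_of_ne_zero hp)]
        rw [qParam_one_eq_pow p hp, ← pow_mul]
      rw [h3]
      exact h1
    · intro j hj
      have : ¬ p ∣ j := fun ⟨m, hm⟩ => hj ⟨m, hm.symm⟩
      simp [hc, this]
  have h := Fermat.Agent.S28.H22.coeff_unique_fun hppos hFp.analyticAt hsum (p * k)
  rw [h]
  simp [hc, Nat.mul_div_cancel_left k (Nat.pos_of_ne_zero hp)]

/-! ### The norm of a form on `Γ₀(N)` -/

section Norm

variable {N : ℕ} [NeZero N] {w : ℕ}

/-- Every coset translate is nice of period `N`. -/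
theorem isNice_cosetFun (Ψ : ModularForm (Γ0 N) w) (c : X N) :
    Fermat.Agent.S22.IsNice N (cosetFun Ψ c) :=
  ⟨by simpa using cosetFun_periodic Ψ c, mdifferentiable_cosetFun Ψ c,
    isBoundedAtImInfty_cosetFun Ψ c⟩

/-- The norm `∏_c Ψ_c` is invariant under the slash action of weight `w * n`. -/
theorem prod_cosetFun_slash (Ψ : ModularForm (Γ0 N) w) (g : SL(2, ℤ)) :
    (∏ c : X N, cosetFun Ψ c) ∣[((w * Fintype.card (X N) : ℕ) : ℤ)] g
      = ∏ c : X N, cosetFun Ψ c := by
  have hw : ((w * Fintype.card (X N) : ℕ) : ℤ)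
      = (w : ℤ) * ((Finset.univ : Finset (X N)).card : ℤ) := by
    rw [Finset.card_univ]
    push_cast
    ring
  rw [hw, SL_slash, ModularForm.prod_slash]
  have hdet : |((toGL ((map (Int.castRingHom ℝ)) g) : GL (Fin 2) ℝ).det.val)| = 1 := by
    simp
  rw [hdet, one_zpow, one_smul]
  have h1 : ∀ c : X N, cosetFun Ψ c ∣[(w : ℤ)] (toGL ((map (Int.castRingHom ℝ)) g))
      = cosetFun Ψ (g⁻¹ • c) := fun c => cosetFun_slash Ψ g c
  simp only [h1]
  exact Equiv.prod_comp (MulAction.toPerm g⁻¹ : Equiv.Perm (X N)) (fun c => cosetFun Ψ c)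

end Norm

/-! ### The norm–Sturm engine -/

/-- **Norm–Sturm.** If every coset translate of `Ψ` (weight `w < 12`) has a period-`p` expansion
with coefficients in the subring `A`, lying in the prime ideal `P` below `t ^ p` and not in `P` at
`t ^ p`: contradiction. -/
theorem norm_sturm (p : ℕ) [Fact p.Prime] {w : ℕ} (hw : w < 12) (Ψ : ModularForm (Γ0 p) w)
    (A : Subring ℂ) (P : Ideal A) (hP : P.IsPrime)
    (h : ∀ c : X p, ∃ Q : PowerSeries A,
      qExpansion (p : ℝ) (cosetFun Ψ c) = Q.map A.subtype ∧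
      (∀ n < p, PowerSeries.coeff n Q ∈ P) ∧ PowerSeries.coeff p Q ∉ P) : False := by
  have hp0 : p ≠ 0 := (Fact.out : p.Prime).ne_zero
  have : NeZero p := ⟨hp0⟩
  choose Q hQ1 hQ2 hQ3 using h
  set n : ℕ := Fintype.card (X p) with hn
  have hnpos : 0 < n := Fintype.card_pos
  set u : ℍ → ℂ := ∏ c : X p, cosetFun Ψ c with hu
  -- `u` is nice of period `p`, and its period-`p` expansion is the product of the `Q c`
  have hnice : ∀ c : X p, Fermat.Agent.S22.IsNice p (cosetFun Ψ c) := isNice_cosetFun Ψ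
  have hunice : Fermat.Agent.S22.IsNice p u :=
    Fermat.Agent.S22.IsNice.prod _ fun c _ => hnice c
  have hexp : qExpansion (p : ℝ) u = (∏ c : X p, Q c).map A.subtype := by
    have h1 := map_prod (Fermat.Agent.S22.qExpHom p)
      (fun c : X p => (⟨cosetFun Ψ c, hnice c⟩ : Fermat.Agent.S22.niceAlg p)) Finset.univ
    simp only [Fermat.Agent.S22.qExpHom_apply] at h1
    have h2 : ((∏ c : X p, (⟨cosetFun Ψ c, hnice c⟩ : Fermat.Agent.S22.niceAlg p) :
        Fermat.Agent.S22.niceAlg p) : ℍ → ℂ) = u := by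
      rw [hu]
      simp
    rw [h2] at h1
    rw [h1, map_prod]
    exact Finset.prod_congr rfl fun c _ => hQ1 c
  -- `u` is a level-one form of weight `w * n`
  obtain ⟨r, hr⟩ := levelOne_of_invariant (m := ((w * n : ℕ) : ℤ)) hunice.holo
    (fun g => prod_cosetFun_slash Ψ g) hunice.bdd
  have hu1 : Fermat.Agent.S22.IsNice 1 u := by
    refine ⟨?_, hunice.holo, hunice.bdd⟩
    have := SlashInvariantFormClass.periodic_comp_ofComplex r one_mem_strictPeriods_SL
    rw [hr] at this
    simpa using this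
  -- coefficients of the `q`-expansion of `r`
  have hcoeff : ∀ k : ℕ, (qExpansion (1 : ℝ) r).coeff k
      = ((PowerSeries.coeff (p * k) (∏ c : X p, Q c) : A) : ℂ) := by
    intro k
    rw [hr, ← qExpansion_coeff_mul hu1 p hp0 k, hexp, PowerSeries.coeff_map]
    rfl
  obtain ⟨hlow, hhigh⟩ := coeff_prod_mem P hP (Finset.univ : Finset (X p)) p Q
    (fun c _ => hQ2 c) (fun c _ => hQ3 c)
  rw [Finset.card_univ] at hlow hhigh
  -- Sturm over the additive subgroup `P`
  set M : AddSubgroup ℂ := (Submodule.toAddSubgroup P).map (A.subtype : A →+* ℂ).toAddMonoidHom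
    with hM
  have hmemM : ∀ k : ℕ, p * k < p * n → (qExpansion (1 : ℝ) r).coeff k ∈ M := by
    intro k hk
    rw [hcoeff k, hM, AddSubgroup.mem_map]
    exact ⟨_, hlow _ hk, rfl⟩
  have hsturm := Fermat.Agent.S16.H78.coeff_mem_of_forall_le M r (fun k hk => by
    apply hmemM
    have hk' : k < n := by
      have h1 : w * n / 12 < n := by
        rw [Nat.div_lt_iff_lt_mul (by norm_num)]
        nlinarith
      omega
    exact Nat.mul_lt_mul_of_pos_left hk' (Nat.pos_of_ne_zero hp0)) n
  rw [hcoeff n, hM, AddSubgroup.mem_map] at hsturm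
  obtain ⟨y, hy, hyeq⟩ := hsturm
  have : y = PowerSeries.coeff (p * n) (∏ c : X p, Q c) := Subtype.ext hyeq
  exact hhigh (this ▸ hy)

end Fermat.Agent.S16.H88
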