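/-
S16, UPPER block, NOG (a) (helper88): no Eisenstein congruence modulo a prime `l ≥ 5` dividing
`p + 1`.

If `G ∈ M₂(Γ₀(p))` has `a₀(G) = 1` and `aₙ(G) ∈ l·V` (`n ≥ 1`) for a valuation subring `V ⊆ ℂ` in
which `l` is a non-unit, and `l ∣ p + 1`, `l ≥ 5`, then every coset translate of `G` has a period-`p`
expansion `1 + l·H`, `H ∈ V⟦t⟧` (helper37's `qExpansion_cosetFun_eq_one_add`); hence every translate
of `Ψ = G² − E₄` (`l ≠ 5`) resp. `G³ − E₆` (`l = 5`) is `−240 σ₃(t^p) + l(…)` resp.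
`504 σ₅(t^p) + 5(…)`, contradicting the norm–Sturm engine `norm_sturm`.
-/
import Fermat.Agent.S16.H37.NogVal
import Fermat.Agent.S16.H88.NormSturm

set_option autoImplicit false

noncomputable section

open UpperHalfPlane ModularForm CongruenceSubgroup Matrix.SpecialLinearGroup EisensteinSeries
open scoped MatrixGroups ModularForm Manifold

namespace Fermat.Agent.S16.H88

open Fermat.Agent.S20 Fermat.Agent.S22 Fermat.Agent.S22.H45

/-- The norm–Sturm engine in helper37's packaging. -/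
theorem normSturm_holds (p : ℕ) [Fact p.Prime] : Fermat.Agent.S16.H37.NormSturm p :=
  fun _ hw Ψ A P hP h => norm_sturm p hw Ψ A P hP h

/-! ### The two polynomials -/

/-- `Φ = x² - a` (weight 4). -/
def PhiSq : MvPolynomial (Fin 3) ℂ := MvPolynomial.X 0 ^ 2 - MvPolynomial.X 1

theorem aeval_PhiSq {R : Type*} [CommRing R] [Algebra ℂ R] (x a b : R) :
    MvPolynomial.aeval ![x, a, b] PhiSq = x ^ 2 - a := by
  simp [PhiSq]

theorem PhiSq_isobaric (d x a b : ℂ) :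
    MvPolynomial.aeval ![d ^ 2 * x, d ^ 4 * a, d ^ 6 * b] PhiSq =
      d ^ 4 * MvPolynomial.aeval ![x, a, b] PhiSq := by
  rw [aeval_PhiSq, aeval_PhiSq]
  ring

/-- `Φ = x³ - b` (weight 6). -/
def PhiCu : MvPolynomial (Fin 3) ℂ := MvPolynomial.X 0 ^ 3 - MvPolynomial.X 2

theorem aeval_PhiCu {R : Type*} [CommRing R] [Algebra ℂ R] (x a b : R) :
    MvPolynomial.aeval ![x, a, b] PhiCu = x ^ 3 - b := by
  simp [PhiCu]

theorem PhiCu_isobaric (d x a b : ℂ) :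
    MvPolynomial.aeval ![d ^ 2 * x, d ^ 4 * a, d ^ 6 * b] PhiCu =
      d ^ 6 * MvPolynomial.aeval ![x, a, b] PhiCu := by
  rw [aeval_PhiCu, aeval_PhiCu]
  ring

theorem expand_qExpansion_E6_sigma (p : ℕ) (hp : p ≠ 0) :
    PowerSeries.expand p hp (qExpansion 1 E₆) =
      1 - 504 * PowerSeries.expand p hp ((sigSer 5).map (Int.castRingHom ℂ)) := by
  rw [qExpansion_E6_eq]
  simp only [map_sub, map_mul, map_one, map_ofNat]

/-! ### The two cores over a subring with a prime ideal -/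

/-- `l ∤ 240`: no `G ≡ 1 mod l` when `-1/p ≡ 1 mod l`. -/
theorem nog_sq_core (p : ℕ) [hpp : Fact p.Prime] (A : Subring ℂ)
    (P : Ideal A) (hP : P.IsPrime) (l : ℕ) (hl : (((l : ℕ) : ℤ) : A) ∈ P)
    (h240 : ((-240 : ℤ) : A) ∉ P)
    (hlA : (l : ℂ) ∈ A) (hpA : (p : ℂ)⁻¹ ∈ A) (hζ : ∀ ζ : ℂ, ζ ^ p = 1 → ζ ∈ A)
    (hp1 : ∃ a ∈ A, -(p : ℂ)⁻¹ = 1 + (l : ℂ) * a)
    (G : ModularForm (Γ0 p) 2) (h0 : (qExpansion 1 G).coeff 0 = 1)
    (hG : ∀ n, 0 < n → ∃ h ∈ A, (qExpansion 1 G).coeff n = (l : ℂ) * h) : False := by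
  have hp : p ≠ 0 := hpp.out.ne_zero
  have : NeZero p := ⟨hp⟩
  obtain ⟨Ψ, hΨ⟩ := Fermat.Agent.S16.H37.exists_form_polyFamily p G 4 PhiSq PhiSq_isobaric
  refine Fermat.Agent.S16.H37.false_of_qExpansion_eq p hp (normSturm_holds p) 4 (by norm_num) Ψ A P
    hP (-240) (l : ℤ) hl h240
    ((sigSer 3).map (Int.castRingHom ℂ)) (Fermat.Agent.S16.H37.map_intCast_mem_coeffRing _)
    (Fermat.Agent.S16.H37.coeff_zero_sigSer 3) (Fermat.Agent.S16.H37.coeff_one_sigSer 3) fun c => ?_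
  obtain ⟨H, hHA, hH⟩ :=
    Fermat.Agent.S16.H37.qExpansion_cosetFun_eq_one_add p A (l : ℂ) hpA hζ hp1 G h0 hG c
  have hHA' : H ∈ Fermat.Agent.S16.H37.coeffRing A := hHA
  refine ⟨2 * H + PowerSeries.C (l : ℂ) * H ^ 2, ?_, ?_⟩
  · exact Subring.add_mem _ (Subring.mul_mem _ (ofNat_mem _ 2) hHA')
      (Subring.mul_mem _ (Fermat.Agent.S16.H37.C_mem_coeffRing hlA) (Subring.pow_mem _ hHA' 2))
  · rw [hΨ c, Fermat.Agent.S16.H37.qExpansion_polyFamily, hH, aeval_PhiSq,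
      Fermat.Agent.S16.H37.expand_qExpansion_E4]
    simp only [Int.cast_neg, Int.cast_ofNat, Int.cast_natCast, map_neg, map_ofNat]
    ring

/-- `l ∤ 504`: no `G ≡ 1 mod l` when `-1/p ≡ 1 mod l`. -/
theorem nog_cu_core (p : ℕ) [hpp : Fact p.Prime] (A : Subring ℂ)
    (P : Ideal A) (hP : P.IsPrime) (l : ℕ) (hl : (((l : ℕ) : ℤ) : A) ∈ P)
    (h504 : ((504 : ℤ) : A) ∉ P)
    (hlA : (l : ℂ) ∈ A) (hpA : (p : ℂ)⁻¹ ∈ A) (hζ : ∀ ζ : ℂ, ζ ^ p = 1 → ζ ∈ A)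
    (hp1 : ∃ a ∈ A, -(p : ℂ)⁻¹ = 1 + (l : ℂ) * a)
    (G : ModularForm (Γ0 p) 2) (h0 : (qExpansion 1 G).coeff 0 = 1)
    (hG : ∀ n, 0 < n → ∃ h ∈ A, (qExpansion 1 G).coeff n = (l : ℂ) * h) : False := by
  have hp : p ≠ 0 := hpp.out.ne_zero
  have : NeZero p := ⟨hp⟩
  obtain ⟨Ψ, hΨ⟩ := Fermat.Agent.S16.H37.exists_form_polyFamily p G 6 PhiCu PhiCu_isobaric
  refine Fermat.Agent.S16.H37.false_of_qExpansion_eq p hp (normSturm_holds p) 6 (by norm_num) Ψ A P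
    hP 504 (l : ℤ) hl h504
    ((sigSer 5).map (Int.castRingHom ℂ)) (Fermat.Agent.S16.H37.map_intCast_mem_coeffRing _)
    (Fermat.Agent.S16.H37.coeff_zero_sigSer 5) (Fermat.Agent.S16.H37.coeff_one_sigSer 5) fun c => ?_
  obtain ⟨H, hHA, hH⟩ :=
    Fermat.Agent.S16.H37.qExpansion_cosetFun_eq_one_add p A (l : ℂ) hpA hζ hp1 G h0 hG c
  have hHA' : H ∈ Fermat.Agent.S16.H37.coeffRing A := hHA
  have hlC : PowerSeries.C (l : ℂ) ∈ Fermat.Agent.S16.H37.coeffRing A :=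
    Fermat.Agent.S16.H37.C_mem_coeffRing hlA
  refine ⟨3 * H + 3 * (PowerSeries.C (l : ℂ) * H ^ 2) + PowerSeries.C (l : ℂ) ^ 2 * H ^ 3, ?_, ?_⟩
  · exact Subring.add_mem _ (Subring.add_mem _ (Subring.mul_mem _ (ofNat_mem _ 3) hHA')
      (Subring.mul_mem _ (ofNat_mem _ 3) (Subring.mul_mem _ hlC (Subring.pow_mem _ hHA' 2))))
      (Subring.mul_mem _ (Subring.pow_mem _ hlC 2) (Subring.pow_mem _ hHA' 3))
  · rw [hΨ c, Fermat.Agent.S16.H37.qExpansion_polyFamily, hH, aeval_PhiCu,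
      expand_qExpansion_E6_sigma]
    simp only [Int.cast_ofNat, Int.cast_natCast, map_ofNat]
    ring

/-! ### The statement over a valuation subring -/

theorem isCoprime_neg_240 {l : ℕ} (hl : l.Prime) (h5 : 5 ≤ l) (hne : l ≠ 5) :
    IsCoprime (-240 : ℤ) (l : ℤ) := by
  have hnd : ¬ l ∣ 240 := by
    intro hd
    have h240 : (240 : ℕ) = 2 ^ 4 * 3 * 5 := by norm_num
    rw [h240] at hd
    rcases (Nat.Prime.dvd_mul hl).mp hd with h | h
    · rcases (Nat.Prime.dvd_mul hl).mp h with h | h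
      · have := Nat.le_of_dvd (by norm_num) (hl.dvd_of_dvd_pow h)
        omega
      · have := Nat.le_of_dvd (by norm_num) h
        omega
    · have := Nat.le_of_dvd (by norm_num) h
      omega
  have hc : Nat.Coprime 240 l := ((Nat.Prime.coprime_iff_not_dvd hl).mpr hnd).symm
  have hc' : IsCoprime ((240 : ℕ) : ℤ) (l : ℤ) := Nat.isCoprime_iff_coprime.mpr hc
  have hc'' : IsCoprime (240 : ℤ) (l : ℤ) := by exact_mod_cast hc'
  exact hc''.neg_left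

/-- **NOG (a)**: if `l ≥ 5` is a prime dividing `p + 1`, no `G ∈ M_2(Γ₀(p))` has `a_0 = 1` and
`a_n ∈ l V` (`n ≥ 1`) for a valuation subring `V` of `ℂ` in which `l` is not invertible. -/
theorem nog_ge_five (p : ℕ) [Fact p.Prime] (l : ℕ) (hl : l.Prime) (h5 : 5 ≤ l) (hlp : l ∣ p + 1)
    (V : ValuationSubring ℂ) (hV : (l : ℂ) ∈ V ∧ (l : ℂ)⁻¹ ∉ V) (G : ModularForm (Γ0 p) 2)
    (h0 : (qExpansion 1 G).coeff 0 = 1)
    (hG : ∀ n, 0 < n → ∃ h ∈ V, (qExpansion 1 G).coeff n = l * h) : False := by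
  have hpp : p.Prime := Fact.out
  obtain ⟨k, hk⟩ := hlp
  have hℓ : ((((l : ℕ) : ℤ) : ℂ))⁻¹ ∉ V := by simpa using hV.2
  obtain ⟨P, hP, hlP, hcop⟩ := Fermat.Agent.S16.H37.exists_prime_ideal V (l : ℤ) hℓ
  have hpcop : IsCoprime (p : ℤ) (l : ℤ) := ⟨-1, k, by
    have : ((p : ℤ) + 1) = l * k := by exact_mod_cast hk
    linarith⟩
  have hpV : (p : ℂ)⁻¹ ∈ V.toSubring := by simpa using (hcop p hpcop).2
  have hlA : (l : ℂ) ∈ V.toSubring := hV.1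
  have hp' : (p : ℂ) ≠ 0 := by exact_mod_cast hpp.ne_zero
  have hk' : (p : ℂ) + 1 = l * k := by exact_mod_cast hk
  have hζ : ∀ ζ : ℂ, ζ ^ p = 1 → ζ ∈ V.toSubring :=
    fun ζ hζ => Fermat.Agent.S16.H37.root_of_unity_mem V hpp.ne_zero hζ
  have hp1 : ∃ a ∈ V.toSubring, -(p : ℂ)⁻¹ = 1 + (l : ℂ) * a := by
    refine ⟨-(k : ℂ) * (p : ℂ)⁻¹, ?_, ?_⟩
    · exact Subring.mul_mem _ (Subring.neg_mem _ (natCast_mem _ k)) hpV
    · field_simp
      linear_combination (-1 : ℂ) * hk'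
  have hG' : ∀ n, 0 < n → ∃ h ∈ V.toSubring, (qExpansion 1 G).coeff n = (l : ℂ) * h :=
    fun n hn => let ⟨h, hh, he⟩ := hG n hn; ⟨h, hh, he⟩
  by_cases h5' : l = 5
  · have h504 : IsCoprime (504 : ℤ) (l : ℤ) := by
      subst h5'
      exact ⟨-1, 101, by norm_num⟩
    exact nog_cu_core p V.toSubring P hP l hlP (hcop _ h504).1 hlA hpV hζ hp1 G h0 hG'
  · exact nog_sq_core p V.toSubring P hP l hlP (hcop _ (isCoprime_neg_240 hl h5 h5')).1 hlA hpV hζ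
      hp1 G h0 hG'

end Fermat.Agent.S16.H88
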