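/-
S16, UPPER block, final statement (helper88): a cusp form of weight 2 on `Γ₀(p)` with integral
coefficients congruent modulo `m` to the Eisenstein series forces `m ∣ eisensteinNumerator p`.

Pure assembly of landed pieces: `H63.upper_of` (helper63: reduction to relation (I) and the three
"no `G`" statements), `H77.rel_I` (helper77: relation (I)), `H88.nog_ge_five` (class (a)),
`H37.nog_three_of` / `H37.nog_two_of` (helper37: classes (b), (c)) and the norm–Sturm engine
`H88.norm_sturm`.
-/
import Fermat.Agent.S16.H63.UpperOf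
import Fermat.Agent.S16.H77.RelI
import Fermat.Agent.S16.H88.NogFive

set_option autoImplicit false

open UpperHalfPlane ModularForm CongruenceSubgroup ModularCurve
open scoped MatrixGroups ModularForm

namespace Fermat.Agent.S16.H88

/-- **UPPER.** -/
theorem upper (p : ℕ) [Fact p.Prime] (m : ℕ) (f : CuspForm (Gamma0 p) 2)
    (hf : ∀ k, 0 < k → ∃ a : ℤ, ModularFormClass.qCoeff f k = (a : ℂ) ∧
      (m : ℤ) ∣ a - ∑ d ∈ k.divisors.filter (fun d => ¬ p ∣ d), (d : ℤ)) :
    m ∣ eisensteinNumerator p :=
  Fermat.Agent.S16.H63.upper_of p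
    (fun m f a ha hc => Fermat.Agent.S16.H77.rel_I (p := p) m f a ha hc)
    (fun l hl h5 hlp V hV G h0 hG => nog_ge_five p l hl h5 hlp V hV G h0 hG)
    (fun h9 V hV G h0 hG =>
      Fermat.Agent.S16.H37.nog_three_of p (normSturm_holds p) h9 V hV G h0 hG)
    (fun h8 V hV G h0 hG =>
      Fermat.Agent.S16.H37.nog_two_of p (normSturm_holds p) h8 V hV G h0 hG)
    m f hf

end Fermat.Agent.S16.H88
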